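/-
Programme T1A (S19), brick R-c EXT, surjectivity half (helper23): `RedIface75.ExtSurjective` for
the point classes of `PtLine75`.

`O` a discrete valuation ring over `W` with fraction field `L`.  Every `L`-point `q` of chart 0
either has `q t ∈ O`, and then `q` factors through `O` because `B0` is integral over `W[t]` and `O`
is integrally closed; or `(q t)⁻¹ ∈ O`, and then `q` extends to the overlap `B01 = B0[1/t]` and its
restriction to chart 1 has `q s = (q t)⁻¹ ∈ O`, so it factors through `O` there.  Hence every point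
class on `X_L` is the base change of a point class on `X_O`, and `ExtSurjective` follows by closure
induction.
-/
import Mathlib
import Fermat.Agent.T1.RedIface75
import Fermat.Agent.T1.PtLine75

set_option autoImplicit false
set_option linter.unusedSectionVars false
set_option linter.style.haveILetI false

universe u

open TensorProduct

namespace Fermat.Agent.T1.Ext23

open Fermat.Agent.Jac Fermat.Agent.Jac.JGroup85Pic Fermat.Agent.Jac.BaseChange75
open Fermat.Agent.T1.RedIface75 Fermat.Agent.T1.PtLine75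
open scoped Fermat.Agent.Jac.BaseChange75

/-! ### Factoring algebra homomorphisms through an injective algebra map -/

section Factor

variable {W O L B : Type u} [CommRing W] [CommRing O] [CommRing L] [CommRing B]
  [Algebra W O] [Algebra W L] [Algebra W B] [Algebra O L] [IsScalarTower W O L]

/-- A `W`-algebra homomorphism `B → L` with values in the image of the injective map `O → L`
factors through `O`. -/
theorem exists_algHom_of_forall_mem_range (hinj : Function.Injective (algebraMap O L))
    (f : B →ₐ[W] L) (hf : ∀ b, f b ∈ Set.range (algebraMap O L)) :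
    ∃ fO : B →ₐ[W] O, ∀ b, algebraMap O L (fO b) = f b := by
  let ι : O →ₐ[W] L := IsScalarTower.toAlgHom W O L
  have hι : Function.Injective ι := hinj
  let e : O ≃ₐ[W] ι.range := AlgEquiv.ofInjective ι hι
  have hf' : ∀ b, f b ∈ ι.range := fun b => by
    obtain ⟨x, hx⟩ := hf b
    exact ⟨x, hx⟩
  refine ⟨(e.symm : ι.range →ₐ[W] O).comp (f.codRestrict ι.range hf'), fun b => ?_⟩
  have h1 : ι (e.symm (f.codRestrict ι.range hf' b)) = f b := by
    have := congrArg Subtype.val (e.apply_symm_apply (f.codRestrict ι.range hf' b))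
    exact this
  exact h1

end Factor

/-! ### Integrality: points with integral coordinate factor through `O` -/

section Integral

variable {W O L B : Type u} [CommRing W] [CommRing O] [Field L] [CommRing B]
  [Algebra W O] [Algebra W L] [Algebra W B] [Algebra O L] [IsScalarTower W O L]
  [IsDomain O] [IsIntegrallyClosed O] [IsFractionRing O L]

/-- If `B` is integral over `W[t]` and the `L`-point `q` of `B` has `q t ∈ O`, then `q` factors
through `O`. -/
theorem exists_factor_of_integral (t : B) (hint : ∀ b : B, IsIntegral (Algebra.adjoin W {t}) b)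
    (q : B →ₐ[W] L) (ht : q t ∈ Set.range (algebraMap O L)) :
    ∃ qO : B →ₐ[W] O, ∀ b, algebraMap O L (qO b) = q b := by
  have hinj : Function.Injective (algebraMap O L) := IsFractionRing.injective O L
  -- the restriction of `q` to `W[t]` factors through `O`
  let S : Subalgebra W B := Algebra.adjoin W {t}
  have hS : ∀ x : S, (q.comp S.val) x ∈ Set.range (algebraMap O L) := by
    rintro ⟨x, hx⟩
    show q x ∈ Set.range (algebraMap O L)
    induction hx using Algebra.adjoin_induction with
    | mem y hy =>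
      rw [Set.mem_singleton_iff] at hy
      rw [hy]; exact ht
    | algebraMap w =>
      refine ⟨algebraMap W O w, ?_⟩
      rw [AlgHom.commutes, ← IsScalarTower.algebraMap_apply]
    | add y z _ _ hy hz =>
      obtain ⟨a, ha⟩ := hy
      obtain ⟨b, hb⟩ := hz
      exact ⟨a + b, by rw [map_add, map_add, ha, hb]⟩
    | mul y z _ _ hy hz =>
      obtain ⟨a, ha⟩ := hy
      obtain ⟨b, hb⟩ := hz
      exact ⟨a * b, by rw [map_mul, map_mul, ha, hb]⟩
  obtain ⟨qS, hqS⟩ := exists_algHom_of_forall_mem_range hinj (q.comp S.val) hS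
  -- every value of `q` is integral over `O`
  refine exists_algHom_of_forall_mem_range hinj q (fun b => ?_)
  obtain ⟨p, hp, hpb⟩ := hint b
  have hint' : IsIntegral O (q b) := by
    refine ⟨p.map (qS : S →+* O), hp.map _, ?_⟩
    rw [Polynomial.eval₂_map]
    have hcomp : (algebraMap O L).comp (qS : S →+* O) = (q : B →+* L).comp (algebraMap S B) := by
      ext x
      exact hqS x
    rw [hcomp]
    show Polynomial.eval₂ ((q : B →+* L).comp (algebraMap S B)) ((q : B →+* L) b) p = 0
    rw [← Polynomial.hom_eval₂, hpb, map_zero]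
  exact (IsIntegrallyClosed.isIntegral_iff (R := O) (K := L)).1 hint'

end Integral

/-! ### Extension of point classes -/

section Charts

variable {W B0 B1 B01 : Type u} [CommRing W] [CommRing B0] [CommRing B1] [CommRing B01]
  [Algebra W B0] [Algebra W B1] [Algebra W B01] [Algebra B0 B01] [Algebra B1 B01]
  [IsScalarTower W B0 B01] [IsScalarTower W B1 B01]
  (c0 : TwoChart W B0 B1 B01)
  (O : Type u) [CommRing O] [IsDomain O] [IsDiscreteValuationRing O] [Algebra W O]
  (L : Type u) [Field L] [Algebra W L] [Algebra O L] [IsScalarTower W O L] [IsFractionRing O L]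

/-- The class of a point does not depend on the proof of invertibility, and is compatible with
equalities of points (chart 0). -/
theorem ptClass0_congr {A : Type u} [CommRing A] [Algebra W A] {q q' : B0 →ₐ[W] A} (hq : q' = q)
    (h : Module.Invertible (A ⊗[W] B0) (ptIdeal q))
    (h' : Module.Invertible (A ⊗[W] B0) (ptIdeal q')) :
    ptClass0 c0 q' h' = ptClass0 c0 q h := by
  subst hq
  rfl

/-- The class of a point does not depend on the proof of invertibility, and is compatible with
equalities of points (chart 1). -/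
theorem ptClass1_congr {A : Type u} [CommRing A] [Algebra W A] {q q' : B1 →ₐ[W] A} (hq : q' = q)
    (h : Module.Invertible (A ⊗[W] B1) (ptIdeal q))
    (h' : Module.Invertible (A ⊗[W] B1) (ptIdeal q')) :
    ptClass1 c0 q' h' = ptClass1 c0 q h := by
  subst hq
  rfl

/-- An `L`-point of chart 0 with `q t ∈ O` is the generic fibre of an `O`-point. -/
theorem exists_ext_ptClass0_of_mem
    (hint0 : ∀ b : B0, IsIntegral (Algebra.adjoin W {c0.t}) b)
    (hinv0 : ∀ qO : B0 →ₐ[W] O, Module.Invertible (O ⊗[W] B0) (ptIdeal qO))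
    (q : B0 →ₐ[W] L) (h : Module.Invertible (L ⊗[W] B0) (ptIdeal q))
    (ht : q c0.t ∈ Set.range (algebraMap O L)) :
    ∃ x ∈ (pointClasses c0).PicPt O, PicX.map c0 O L x = ptClass0 c0 q h := by
  obtain ⟨qO, hqO⟩ := exists_factor_of_integral c0.t hint0 q ht
  have hq : ptComp L qO = q := AlgHom.ext hqO
  refine ⟨ptClass0 c0 qO (hinv0 qO), ptClass0_mem_picPt c0 qO _, ?_⟩
  rw [map_ptClass0 c0 L qO (hinv0 qO) (invertible_ptIdeal_ptComp0 c0 L qO (hinv0 qO))]
  exact ptClass0_congr c0 hq h _

/-- An `L`-point of chart 1 with `q s ∈ O` is the generic fibre of an `O`-point. -/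
theorem exists_ext_ptClass1_of_mem
    (hint1 : ∀ b : B1, IsIntegral (Algebra.adjoin W {c0.s}) b)
    (hinv1 : ∀ qO : B1 →ₐ[W] O, Module.Invertible (O ⊗[W] B1) (ptIdeal qO))
    (q : B1 →ₐ[W] L) (h : Module.Invertible (L ⊗[W] B1) (ptIdeal q))
    (hs : q c0.s ∈ Set.range (algebraMap O L)) :
    ∃ x ∈ (pointClasses c0).PicPt O, PicX.map c0 O L x = ptClass1 c0 q h := by
  obtain ⟨qO, hqO⟩ := exists_factor_of_integral c0.s hint1 q hs
  have hq : ptComp L qO = q := AlgHom.ext hqO
  refine ⟨ptClass1 c0 qO (hinv1 qO), ptClass1_mem_picPt c0 qO _, ?_⟩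
  rw [map_ptClass1 c0 L qO (hinv1 qO) (invertible_ptIdeal_ptComp1 c0 L qO (hinv1 qO))]
  exact ptClass1_congr c0 hq h _

/-- In the fraction field of a discrete valuation ring, `x ∉ O` implies `x⁻¹ ∈ O`. -/
theorem inv_mem_range_of_not_mem {x : L} (hx : x ∉ Set.range (algebraMap O L)) :
    x⁻¹ ∈ Set.range (algebraMap O L) := by
  rcases ValuationRing.isInteger_or_isInteger O x with ⟨a, ha⟩ | ⟨a, ha⟩
  · exact absurd ⟨a, ha⟩ hx
  · exact ⟨a, ha⟩

/-- Every `L`-point class of chart 0 extends to `X_O`. -/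
theorem exists_ext_ptClass0
    (hint0 : ∀ b : B0, IsIntegral (Algebra.adjoin W {c0.t}) b)
    (hint1 : ∀ b : B1, IsIntegral (Algebra.adjoin W {c0.s}) b)
    (hinv0 : ∀ qO : B0 →ₐ[W] O, Module.Invertible (O ⊗[W] B0) (ptIdeal qO))
    (hinv1 : ∀ qO : B1 →ₐ[W] O, Module.Invertible (O ⊗[W] B1) (ptIdeal qO))
    (q : B0 →ₐ[W] L) (h : Module.Invertible (L ⊗[W] B0) (ptIdeal q)) :
    ∃ x ∈ (pointClasses c0).PicPt O, PicX.map c0 O L x = ptClass0 c0 q h := by
  by_cases ht : q c0.t ∈ Set.range (algebraMap O L)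
  · exact exists_ext_ptClass0_of_mem c0 O L hint0 hinv0 q h ht
  · have hne : q c0.t ≠ 0 := fun h0 => ht ⟨0, by rw [map_zero, h0]⟩
    have hinvO := inv_mem_range_of_not_mem O L ht
    haveI : IsLocalization (Submonoid.powers c0.t) B01 := c0.away0
    have hunit : ∀ y : Submonoid.powers c0.t, IsUnit (q y) := by
      rintro ⟨y, n, rfl⟩
      show IsUnit (q (c0.t ^ n))
      rw [map_pow]
      exact (IsUnit.mk0 _ hne).pow n
    let q01 : B01 →ₐ[W] L := IsLocalization.liftAlgHom (M := Submonoid.powers c0.t) (f := q) hunit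
    have h01 : ∀ b : B0, q01 (algebraMap B0 B01 b) = q b := fun b =>
      IsLocalization.lift_eq hunit b
    have hq : ptRes0 q01 = q := AlgHom.ext h01
    have h0' : Module.Invertible (L ⊗[W] B0) (ptIdeal (ptRes0 (B0 := B0) q01)) := by
      rw [hq]; exact h
    have h1' := invertible_ptRes1_of_ptRes0 c0 q01 h0'
    have hs : (ptRes1 q01 : B1 →ₐ[W] L) c0.s ∈ Set.range (algebraMap O L) := by
      have h1 : q c0.t * (ptRes1 q01 : B1 →ₐ[W] L) c0.s = 1 := by
        rw [← h01, ptRes1_apply, ← map_mul, c0.ts, map_one]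
      rw [eq_inv_of_mul_eq_one_right h1]
      exact hinvO
    obtain ⟨x, hx, hmap⟩ := exists_ext_ptClass1_of_mem c0 O L hint1 hinv1 (ptRes1 q01) h1' hs
    refine ⟨x, hx, ?_⟩
    rw [hmap, ← ptClass0_eq_ptClass1 c0 q01 h0' h1']
    exact ptClass0_congr c0 hq h _

/-- Every `L`-point class of chart 1 extends to `X_O`. -/
theorem exists_ext_ptClass1
    (hint0 : ∀ b : B0, IsIntegral (Algebra.adjoin W {c0.t}) b)
    (hint1 : ∀ b : B1, IsIntegral (Algebra.adjoin W {c0.s}) b)
    (hinv0 : ∀ qO : B0 →ₐ[W] O, Module.Invertible (O ⊗[W] B0) (ptIdeal qO))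
    (hinv1 : ∀ qO : B1 →ₐ[W] O, Module.Invertible (O ⊗[W] B1) (ptIdeal qO))
    (q : B1 →ₐ[W] L) (h : Module.Invertible (L ⊗[W] B1) (ptIdeal q)) :
    ∃ x ∈ (pointClasses c0).PicPt O, PicX.map c0 O L x = ptClass1 c0 q h := by
  by_cases hs : q c0.s ∈ Set.range (algebraMap O L)
  · exact exists_ext_ptClass1_of_mem c0 O L hint1 hinv1 q h hs
  · have hne : q c0.s ≠ 0 := fun h0 => hs ⟨0, by rw [map_zero, h0]⟩
    have hinvO := inv_mem_range_of_not_mem O L hs
    haveI : IsLocalization (Submonoid.powers c0.s) B01 := c0.away1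
    have hunit : ∀ y : Submonoid.powers c0.s, IsUnit (q y) := by
      rintro ⟨y, n, rfl⟩
      show IsUnit (q (c0.s ^ n))
      rw [map_pow]
      exact (IsUnit.mk0 _ hne).pow n
    let q01 : B01 →ₐ[W] L := IsLocalization.liftAlgHom (M := Submonoid.powers c0.s) (f := q) hunit
    have h01 : ∀ b : B1, q01 (algebraMap B1 B01 b) = q b := fun b =>
      IsLocalization.lift_eq hunit b
    have hq : ptRes1 q01 = q := AlgHom.ext h01
    have h1' : Module.Invertible (L ⊗[W] B1) (ptIdeal (ptRes1 (B1 := B1) q01)) := by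
      rw [hq]; exact h
    have h0' := invertible_ptRes0_of_ptRes1 c0 q01 h1'
    have ht : (ptRes0 q01 : B0 →ₐ[W] L) c0.t ∈ Set.range (algebraMap O L) := by
      have h1 : (ptRes0 q01 : B0 →ₐ[W] L) c0.t * q c0.s = 1 := by
        rw [← h01, ptRes0_apply, ← map_mul, c0.ts, map_one]
      rw [eq_inv_of_mul_eq_one_left h1]
      exact hinvO
    obtain ⟨x, hx, hmap⟩ := exists_ext_ptClass0_of_mem c0 O L hint0 hinv0 (ptRes0 q01) h0' ht
    refine ⟨x, hx, ?_⟩
    rw [hmap, ptClass0_eq_ptClass1 c0 q01 h0' h1']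
    exact ptClass1_congr c0 hq h _

/-- **Brick R-c (EXT), surjectivity**: every class on `X_L` generated by `L`-points extends to a
class on `X_O` generated by `O`-points.  Hypotheses: the charts are integral over `W[t]`, `W[s]`,
and the ideals of `O`-points of the charts are invertible. -/
theorem extSurjective
    (hint0 : ∀ b : B0, IsIntegral (Algebra.adjoin W {c0.t}) b)
    (hint1 : ∀ b : B1, IsIntegral (Algebra.adjoin W {c0.s}) b)
    (hinv0 : ∀ qO : B0 →ₐ[W] O, Module.Invertible (O ⊗[W] B0) (ptIdeal qO))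
    (hinv1 : ∀ qO : B1 →ₐ[W] O, Module.Invertible (O ⊗[W] B1) (ptIdeal qO)) :
    ExtSurjective c0 O L (pointClasses c0) := by
  intro y hy
  have hle : Subgroup.closure {x | IsPtClass c0 L x} ≤
      ((pointClasses c0).PicPt O).map (PicX.map c0 O L) := by
    rw [Subgroup.closure_le]
    rintro y (⟨q, h, rfl⟩ | ⟨q, h, rfl⟩)
    · obtain ⟨x, hx, hmap⟩ := exists_ext_ptClass0 c0 O L hint0 hint1 hinv0 hinv1 q h
      exact ⟨x, hx, hmap⟩
    · obtain ⟨x, hx, hmap⟩ := exists_ext_ptClass1 c0 O L hint0 hint1 hinv0 hinv1 q h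
      exact ⟨x, hx, hmap⟩
  obtain ⟨x, hx, hmap⟩ := hle hy
  exact ⟨x, hx, hmap⟩

end Charts

end Fermat.Agent.T1.Ext23
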