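/-
Programme T1A (S19), brick R-c EXT (helper23), complement: the ideal of EVERY `L`-point of a chart
is an invertible module, from integrality of the charts over `W[t]`, `W[s]` and invertibility of
the ideals of `O`-points only (`O` a discrete valuation ring with fraction field `L`).
So every generator of `PicPt L` is literally `ptClass_j c0 q (invertible_ptIdeal_Lj .. q)`.
-/
import Mathlib
import Fermat.Agent.T1.Ext23.Surj

set_option autoImplicit false
set_option linter.unusedSectionVars false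
set_option linter.style.haveILetI false

universe u

open TensorProduct

namespace Fermat.Agent.T1.Ext23

open Fermat.Agent.Jac Fermat.Agent.Jac.JGroup85Pic Fermat.Agent.Jac.BaseChange75
open Fermat.Agent.T1.RedIface75 Fermat.Agent.T1.PtLine75
open scoped Fermat.Agent.Jac.BaseChange75

variable {W B0 B1 B01 : Type u} [CommRing W] [CommRing B0] [CommRing B1] [CommRing B01]
  [Algebra W B0] [Algebra W B1] [Algebra W B01] [Algebra B0 B01] [Algebra B1 B01]
  [IsScalarTower W B0 B01] [IsScalarTower W B1 B01]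
  (c0 : TwoChart W B0 B1 B01)
  (O : Type u) [CommRing O] [IsDomain O] [IsDiscreteValuationRing O] [Algebra W O]
  (L : Type u) [Field L] [Algebra W L] [Algebra O L] [IsScalarTower W O L] [IsFractionRing O L]

/-- An `L`-point of chart 0 with `q t ∉ O` extends to the overlap, and its restriction to chart 1
has `q s ∈ O`. -/
theorem exists_overlap_of_not_mem0 (q : B0 →ₐ[W] L)
    (ht : q c0.t ∉ Set.range (algebraMap O L)) :
    ∃ q01 : B01 →ₐ[W] L, ptRes0 q01 = q ∧
      (ptRes1 q01 : B1 →ₐ[W] L) c0.s ∈ Set.range (algebraMap O L) := by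
  have hne : q c0.t ≠ 0 := fun h0 => ht ⟨0, by rw [map_zero, h0]⟩
  have hinvO := inv_mem_range_of_not_mem O L ht
  haveI : IsLocalization (Submonoid.powers c0.t) B01 := c0.away0
  have hunit : ∀ y : Submonoid.powers c0.t, IsUnit (q y) := by
    rintro ⟨y, n, rfl⟩
    show IsUnit (q (c0.t ^ n))
    rw [map_pow]
    exact (IsUnit.mk0 _ hne).pow n
  let q01 : B01 →ₐ[W] L := IsLocalization.liftAlgHom (M := Submonoid.powers c0.t) (f := q) hunit
  have h01 : ∀ b : B0, q01 (algebraMap B0 B01 b) = q b := fun b =>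
    IsLocalization.lift_eq hunit b
  refine ⟨q01, AlgHom.ext h01, ?_⟩
  have h1 : q c0.t * (ptRes1 q01 : B1 →ₐ[W] L) c0.s = 1 := by
    rw [← h01, ptRes1_apply, ← map_mul, c0.ts, map_one]
  rw [eq_inv_of_mul_eq_one_right h1]
  exact hinvO

/-- An `L`-point of chart 1 with `q s ∉ O` extends to the overlap, and its restriction to chart 0
has `q t ∈ O`. -/
theorem exists_overlap_of_not_mem1 (q : B1 →ₐ[W] L)
    (hs : q c0.s ∉ Set.range (algebraMap O L)) :
    ∃ q01 : B01 →ₐ[W] L, ptRes1 q01 = q ∧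
      (ptRes0 q01 : B0 →ₐ[W] L) c0.t ∈ Set.range (algebraMap O L) := by
  have hne : q c0.s ≠ 0 := fun h0 => hs ⟨0, by rw [map_zero, h0]⟩
  have hinvO := inv_mem_range_of_not_mem O L hs
  haveI : IsLocalization (Submonoid.powers c0.s) B01 := c0.away1
  have hunit : ∀ y : Submonoid.powers c0.s, IsUnit (q y) := by
    rintro ⟨y, n, rfl⟩
    show IsUnit (q (c0.s ^ n))
    rw [map_pow]
    exact (IsUnit.mk0 _ hne).pow n
  let q01 : B01 →ₐ[W] L := IsLocalization.liftAlgHom (M := Submonoid.powers c0.s) (f := q) hunit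
  have h01 : ∀ b : B1, q01 (algebraMap B1 B01 b) = q b := fun b =>
    IsLocalization.lift_eq hunit b
  refine ⟨q01, AlgHom.ext h01, ?_⟩
  have h1 : (ptRes0 q01 : B0 →ₐ[W] L) c0.t * q c0.s = 1 := by
    rw [← h01, ptRes0_apply, ← map_mul, c0.ts, map_one]
  rw [eq_inv_of_mul_eq_one_left h1]
  exact hinvO

/-- The ideal of an `L`-point of chart 0 with `q t ∈ O` is invertible. -/
theorem invertible_ptIdeal_L0_of_mem
    (hint0 : ∀ b : B0, IsIntegral (Algebra.adjoin W {c0.t}) b)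
    (hinv0 : ∀ qO : B0 →ₐ[W] O, Module.Invertible (O ⊗[W] B0) (ptIdeal qO))
    (q : B0 →ₐ[W] L) (ht : q c0.t ∈ Set.range (algebraMap O L)) :
    Module.Invertible (L ⊗[W] B0) (ptIdeal q) := by
  obtain ⟨qO, hqO⟩ := exists_factor_of_integral c0.t hint0 q ht
  have hq : ptComp L qO = q := AlgHom.ext hqO
  rw [← hq]
  exact invertible_ptIdeal_ptComp0 c0 L qO (hinv0 qO)

/-- The ideal of an `L`-point of chart 1 with `q s ∈ O` is invertible. -/
theorem invertible_ptIdeal_L1_of_mem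
    (hint1 : ∀ b : B1, IsIntegral (Algebra.adjoin W {c0.s}) b)
    (hinv1 : ∀ qO : B1 →ₐ[W] O, Module.Invertible (O ⊗[W] B1) (ptIdeal qO))
    (q : B1 →ₐ[W] L) (hs : q c0.s ∈ Set.range (algebraMap O L)) :
    Module.Invertible (L ⊗[W] B1) (ptIdeal q) := by
  obtain ⟨qO, hqO⟩ := exists_factor_of_integral c0.s hint1 q hs
  have hq : ptComp L qO = q := AlgHom.ext hqO
  rw [← hq]
  exact invertible_ptIdeal_ptComp1 c0 L qO (hinv1 qO)

/-- **The ideal of every `L`-point of chart 0 is an invertible module.** -/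
theorem invertible_ptIdeal_L0
    (hint0 : ∀ b : B0, IsIntegral (Algebra.adjoin W {c0.t}) b)
    (hint1 : ∀ b : B1, IsIntegral (Algebra.adjoin W {c0.s}) b)
    (hinv0 : ∀ qO : B0 →ₐ[W] O, Module.Invertible (O ⊗[W] B0) (ptIdeal qO))
    (hinv1 : ∀ qO : B1 →ₐ[W] O, Module.Invertible (O ⊗[W] B1) (ptIdeal qO))
    (q : B0 →ₐ[W] L) : Module.Invertible (L ⊗[W] B0) (ptIdeal q) := by
  by_cases ht : q c0.t ∈ Set.range (algebraMap O L)
  · exact invertible_ptIdeal_L0_of_mem c0 O L hint0 hinv0 q ht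
  · obtain ⟨q01, hq, hs⟩ := exists_overlap_of_not_mem0 c0 O L q ht
    have h1 := invertible_ptIdeal_L1_of_mem c0 O L hint1 hinv1 (ptRes1 q01) hs
    have h0 := invertible_ptRes0_of_ptRes1 c0 q01 h1
    rw [hq] at h0
    exact h0

/-- **The ideal of every `L`-point of chart 1 is an invertible module.** -/
theorem invertible_ptIdeal_L1
    (hint0 : ∀ b : B0, IsIntegral (Algebra.adjoin W {c0.t}) b)
    (hint1 : ∀ b : B1, IsIntegral (Algebra.adjoin W {c0.s}) b)
    (hinv0 : ∀ qO : B0 →ₐ[W] O, Module.Invertible (O ⊗[W] B0) (ptIdeal qO))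
    (hinv1 : ∀ qO : B1 →ₐ[W] O, Module.Invertible (O ⊗[W] B1) (ptIdeal qO))
    (q : B1 →ₐ[W] L) : Module.Invertible (L ⊗[W] B1) (ptIdeal q) := by
  by_cases hs : q c0.s ∈ Set.range (algebraMap O L)
  · exact invertible_ptIdeal_L1_of_mem c0 O L hint1 hinv1 q hs
  · obtain ⟨q01, hq, ht⟩ := exists_overlap_of_not_mem1 c0 O L q hs
    have h0 := invertible_ptIdeal_L0_of_mem c0 O L hint0 hinv0 (ptRes0 q01) ht
    have h1 := invertible_ptRes1_of_ptRes0 c0 q01 h0
    rw [hq] at h1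
    exact h1

/-- Every `L`-point of chart 0 is the generic fibre of an `O`-point of chart 0 or of chart 1: the
class of its ideal sheaf, formed with `invertible_ptIdeal_L0`, extends to `X_O`. -/
theorem exists_ext_ptClass0'
    (hint0 : ∀ b : B0, IsIntegral (Algebra.adjoin W {c0.t}) b)
    (hint1 : ∀ b : B1, IsIntegral (Algebra.adjoin W {c0.s}) b)
    (hinv0 : ∀ qO : B0 →ₐ[W] O, Module.Invertible (O ⊗[W] B0) (ptIdeal qO))
    (hinv1 : ∀ qO : B1 →ₐ[W] O, Module.Invertible (O ⊗[W] B1) (ptIdeal qO))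
    (q : B0 →ₐ[W] L) :
    ∃ x ∈ (pointClasses c0).PicPt O, PicX.map c0 O L x =
      ptClass0 c0 q (invertible_ptIdeal_L0 c0 O L hint0 hint1 hinv0 hinv1 q) :=
  exists_ext_ptClass0 c0 O L hint0 hint1 hinv0 hinv1 q _

/-- Chart-1 version of `exists_ext_ptClass0'`. -/
theorem exists_ext_ptClass1'
    (hint0 : ∀ b : B0, IsIntegral (Algebra.adjoin W {c0.t}) b)
    (hint1 : ∀ b : B1, IsIntegral (Algebra.adjoin W {c0.s}) b)
    (hinv0 : ∀ qO : B0 →ₐ[W] O, Module.Invertible (O ⊗[W] B0) (ptIdeal qO))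
    (hinv1 : ∀ qO : B1 →ₐ[W] O, Module.Invertible (O ⊗[W] B1) (ptIdeal qO))
    (q : B1 →ₐ[W] L) :
    ∃ x ∈ (pointClasses c0).PicPt O, PicX.map c0 O L x =
      ptClass1 c0 q (invertible_ptIdeal_L1 c0 O L hint0 hint1 hinv0 hinv1 q) :=
  exists_ext_ptClass1 c0 O L hint0 hint1 hinv0 hinv1 q _

end Fermat.Agent.T1.Ext23
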